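import Mathlib
import Fermat.Agent.GJ.Kum.ZetaProd

/-!
# GATE-F / GF-NORMDEPTH-UDEPTH, file 1: the `U`-depth identity on Laurent series

For a domain `R` with a primitive `ℓ`-th root of unity `z : Rˣ`, `a b : R((t))`, `c : R`:

  `normL ℓ (b + c a) = normL ℓ b + (c ℓ) s + c² w`      for some `s w : R((q))`

(`normL_add_single_mul`), where `normL` is the root-of-unity free series norm of
`GJ/Kum/NormSeries.lean` (`= U` on `q`-expansions).  Working over `R := A` (a valuation ring)
keeps every series integral: no valuation on Laurent series is needed.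
-/

namespace Fermat.Agent.GF.NormDepth.U

open Finset HahnSeries ModularCurve
open Fermat.Agent.GJ.Kum
open Fermat.Agent.S28 (scaleHom scaleHom_coeff)

section ProdExpand

variable {S : Type*} [CommRing S] {ι : Type*} [DecidableEq ι]

/-- second-order expansion of `∏ (B k + c A k)` in `c`. -/
theorem exists_prod_add_mul_eq (s : Finset ι) (B A : ι → S) (c : S) :
    ∃ W : S, ∏ k ∈ s, (B k + c * A k) =
      ∏ k ∈ s, B k + c * (∑ k ∈ s, A k * ∏ i ∈ s.erase k, B i) + c ^ 2 * W := by
  induction s using Finset.induction_on with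
  | empty => exact ⟨0, by simp⟩
  | insert k₀ s hk₀ ih =>
    obtain ⟨W, hW⟩ := ih
    have hT : ∑ k ∈ insert k₀ s, A k * ∏ i ∈ (insert k₀ s).erase k, B i =
        A k₀ * ∏ i ∈ s, B i + B k₀ * ∑ k ∈ s, A k * ∏ i ∈ s.erase k, B i := by
      rw [sum_insert hk₀, erase_insert hk₀, mul_sum]
      congr 1
      refine sum_congr rfl fun k hk => ?_
      have hne : k₀ ≠ k := fun h => hk₀ (h ▸ hk)
      rw [erase_insert_of_ne hne, prod_insert (fun h => hk₀ (mem_of_mem_erase h))]
      ring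
    refine ⟨B k₀ * W + A k₀ * (∑ k ∈ s, A k * ∏ i ∈ s.erase k, B i) + c * A k₀ * W, ?_⟩
    rw [prod_insert hk₀, prod_insert hk₀, hW, hT]
    ring

end ProdExpand

section Scale

variable {R : Type*} [CommRing R] (ℓ : ℕ) [NeZero ℓ]

/-- `sect` commutes with multiplication by a constant -/
theorem sect_single_zero_mul (r : ℕ) (x : R) (Y : LaurentSeries R) :
    sect ℓ r (HahnSeries.single 0 x * Y) = HahnSeries.single 0 x * sect ℓ r Y := by
  ext m
  rw [coeff_sect, HahnSeries.coeff_single_zero_mul, HahnSeries.coeff_single_zero_mul, coeff_sect]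

/-- `scaleHom` fixes constants -/
theorem scaleHom_single_zero (c : Rˣ) (x : R) :
    scaleHom R c (HahnSeries.single 0 x) = HahnSeries.single 0 x := by
  rw [scaleHom_single, zpow_zero, Units.val_one, one_mul]

theorem scaleHom_comp (c d : Rˣ) (Y : LaurentSeries R) :
    scaleHom R c (scaleHom R d Y) = scaleHom R (c * d) Y := by
  ext m
  rw [scaleHom_coeff, scaleHom_coeff, scaleHom_coeff, mul_zpow, Units.val_mul, mul_assoc]

/-- the sum over the `ℓ` rotations is `ℓ` times the `0`-th section -/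
theorem sum_scaleHom_eq [IsDomain R] (z : Rˣ) (hz : IsPrimitiveRoot (z : R) ℓ)
    (Y : LaurentSeries R) :
    ∑ k ∈ range ℓ, scaleHom R (z ^ k) Y =
      HahnSeries.single 0 (ℓ : R) * qExpand R ℓ (sect ℓ 0 Y) := by
  have hzu : IsPrimitiveRoot z ℓ := IsPrimitiveRoot.coe_units_iff.mp hz
  ext n
  rw [HahnSeries.coeff_sum, HahnSeries.coeff_single_zero_mul]
  simp only [scaleHom_coeff]
  rw [← Finset.sum_mul]
  have hpow : ∀ k : ℕ, (((z ^ k) ^ n : Rˣ) : R) = (((z ^ n : Rˣ) : R)) ^ k := by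
    intro k
    rw [← Units.val_pow_eq_pow_val, ← zpow_natCast z k, ← zpow_mul, ← zpow_natCast (z ^ n) k,
      ← zpow_mul, mul_comm]
  simp only [hpow]
  by_cases hn : (ℓ : ℤ) ∣ n
  · have h1 : z ^ n = 1 := (hzu.zpow_eq_one_iff_dvd n).mpr hn
    rw [h1, Units.val_one]
    simp only [one_pow, sum_const, card_range, nsmul_eq_mul, mul_one]
    obtain ⟨m, rfl⟩ := hn
    rw [qExpand_coeff_mul, coeff_sect, Nat.cast_zero, add_zero]
  · have h1 : z ^ n ≠ 1 := fun h => hn ((hzu.zpow_eq_one_iff_dvd n).mp h)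
    have h2 : ((z ^ n : Rˣ) : R) ≠ 1 := fun h => h1 (Units.ext (by rw [h, Units.val_one]))
    have h3 : ((z ^ n : Rˣ) : R) ^ ℓ = 1 := by
      rw [← Units.val_pow_eq_pow_val, ← zpow_natCast, ← zpow_mul, mul_comm, zpow_mul,
        zpow_natCast, hzu.pow_eq_one, one_zpow, Units.val_one]
    have h4 : (∑ k ∈ range ℓ, ((z ^ n : Rˣ) : R) ^ k) * (((z ^ n : Rˣ) : R) - 1) = 0 := by
      rw [geom_sum_mul, h3, sub_self]
    have h5 : ∑ k ∈ range ℓ, ((z ^ n : Rˣ) : R) ^ k = 0 :=
      (mul_eq_zero.mp h4).resolve_right (sub_ne_zero.mpr h2)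
    rw [h5, zero_mul, qExpand_coeff_of_not_dvd ℓ _ hn, mul_zero]

end Scale

section Main

variable {R : Type*} [CommRing R] [IsDomain R] (ℓ : ℕ) [NeZero ℓ]

/-- **The `U`-depth identity.** -/
theorem normL_add_single_mul (z : Rˣ) (hz : IsPrimitiveRoot (z : R) ℓ)
    (a b : LaurentSeries R) (c : R) :
    ∃ s w : LaurentSeries R,
      normL ℓ (b + HahnSeries.single 0 c * a) =
        normL ℓ b + HahnSeries.single 0 (c * (ℓ : R)) * s + HahnSeries.single 0 (c ^ 2) * w := by
  classical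
  have hzℓ : z ^ ℓ = 1 := by
    apply Units.ext
    rw [Units.val_pow_eq_pow_val, hz.pow_eq_one, Units.val_one]
  -- the rotations, indexed by `Fin ℓ`
  set σ : Fin ℓ → LaurentSeries R →+* LaurentSeries R := fun k => scaleHom R (z ^ (k : ℕ)) with hσ
  have hσadd : ∀ (k i : Fin ℓ) (Y : LaurentSeries R), σ k (σ i Y) = σ (k + i) Y := by
    intro k i Y
    simp only [hσ]
    rw [scaleHom_comp, ← _root_.pow_add, Fin.val_add, ← pow_eq_pow_mod _ hzℓ]
  set bhat : LaurentSeries R := ∏ i ∈ (univ : Finset (Fin ℓ)).erase 0, σ i b with hbhat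
  have hshift : ∀ k : Fin ℓ, σ k bhat = ∏ i ∈ (univ : Finset (Fin ℓ)).erase k, σ i b := by
    intro k
    rw [hbhat, map_prod]
    refine Finset.prod_nbij' (fun i => k + i) (fun j => j - k) ?_ ?_ ?_ ?_ ?_
    · intro i hi
      rw [mem_erase] at hi ⊢
      exact ⟨fun h => hi.1 (by simpa using h), mem_univ _⟩
    · intro j hj
      rw [mem_erase] at hj ⊢
      exact ⟨fun h => hj.1 (by rw [sub_eq_zero] at h; exact h), mem_univ _⟩
    · intro i _; simp
    · intro j _; simp
    · intro i _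
      exact hσadd k i b
  -- product forms
  have hprod : ∀ u : LaurentSeries R, qExpand R ℓ (normL ℓ u) = ∏ k : Fin ℓ, σ k u := by
    intro u
    rw [qExpand_normL_eq_prod ℓ z hz u,
      ← Fin.prod_univ_eq_prod_range (fun b => scaleHom R (z ^ b) u) ℓ]
  obtain ⟨W, hW⟩ := exists_prod_add_mul_eq (univ : Finset (Fin ℓ)) (fun k => σ k b)
    (fun k => σ k a) (HahnSeries.single 0 c)
  have hT : ∑ k : Fin ℓ, σ k a * ∏ i ∈ (univ : Finset (Fin ℓ)).erase k, σ i b =
      HahnSeries.single 0 (ℓ : R) * qExpand R ℓ (sect ℓ 0 (a * bhat)) := by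
    rw [← sum_scaleHom_eq ℓ z hz (a * bhat),
      ← Fin.sum_univ_eq_sum_range (fun k => scaleHom R (z ^ k) (a * bhat)) ℓ]
    refine Finset.sum_congr rfl fun k _ => ?_
    rw [← hshift k]
    exact (map_mul (σ k) a bhat).symm
  have hexp : qExpand R ℓ (normL ℓ (b + HahnSeries.single 0 c * a)) =
      qExpand R ℓ (normL ℓ b) +
        HahnSeries.single 0 c *
          (HahnSeries.single 0 (ℓ : R) * qExpand R ℓ (sect ℓ 0 (a * bhat))) +
        HahnSeries.single 0 c ^ 2 * W := by
    rw [hprod, hprod, ← hT, ← hW]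
    refine Finset.prod_congr rfl fun k _ => ?_
    simp only [hσ]
    rw [map_add, map_mul, scaleHom_single_zero]
  refine ⟨sect ℓ 0 (a * bhat), sect ℓ 0 W, ?_⟩
  have h0 := congrArg (sect ℓ 0) hexp
  rw [sect_qExpand_zero, sect_add, sect_add, sect_qExpand_zero, sect_single_zero_mul,
    sect_single_zero_mul, sect_qExpand_zero, HahnSeries.single_pow, nsmul_zero,
    sect_single_zero_mul, ← mul_assoc, HahnSeries.single_mul_single, zero_add] at h0
  exact h0

end Main

end Fermat.Agent.GF.NormDepth.U
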