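import Mathlib
import Fermat.Agent.GF.NormDepth.U.Series
import Fermat.Agent.GJ.J1.Val.GaussRedData

/-!
# GATE-F / GF-NORMDEPTH-UDEPTH, file 2: the `U`-depth lemma on the Gauss valuation ring

Generic frame of `GJ/J1/Val/GaussRedData.lean`: `L` a field, `A : ValuationSubring L`,
`F ≤ L((q))` with the Gauss fraction property.  The Gauss valuation ring `Rw` consists of
FRACTIONS `a / b` of `A`-integral series of `F` with `b̃ ≠ 0` (NOT of the series with integral
coefficients), so the depth lemma has to be proved on fractions.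

`isFrac_normL_sub_one` : if `x = 1 + c y` with `y = a / b` a Gauss fraction, `F` stable under
the series norm `normL ℓ` (`= U_ℓ` on `q`-expansions), `ζ_ℓ ∈ A`, `c' ∣ c` and `c' ∣ ℓ` in `A`,
then `normL ℓ x = 1 + c c' y'` with `y'` again a Gauss fraction.

`exists_mem_Rw_normL_sub_one` : the same in terms of `Rw`.
-/

namespace Fermat.Agent.GF.NormDepth.U

open HahnSeries ModularCurve
open Fermat.Agent.GJ.Kum Fermat.Agent.GJ.J1.Val

variable {L : Type*} [Field L] {A : ValuationSubring L}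
  {F : IntermediateField L (LaurentSeries L)}

/-- the series norm commutes with the coefficientwise embedding -/
theorem emb_normL (ℓ : ℕ) [NeZero ℓ] (u : LaurentSeries A) :
    emb A (normL ℓ u) = normL ℓ (emb A u) := coeffMap_normL ℓ _ u

/-- the series norm commutes with the coefficientwise reduction -/
theorem rd_normL (ℓ : ℕ) [NeZero ℓ] (u : LaurentSeries A) :
    rd A (normL ℓ u) = normL ℓ (rd A u) := coeffMap_normL ℓ _ u

/-- over a field the series norm of a nonzero series is nonzero -/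
theorem normL_ne_zero_of_field {κ : Type*} [Field κ] (ℓ : ℕ) [NeZero ℓ] {u : LaurentSeries κ}
    (hu : u ≠ 0) : normL ℓ u ≠ 0 := by
  intro h
  have h1 : normL ℓ u * normL ℓ u⁻¹ = 1 := by
    rw [← normL_mul, mul_inv_cancel₀ hu, normL_one]
  rw [h, zero_mul] at h1
  exact zero_ne_one h1

/-- **`U`-depth lemma, fraction form.** -/
theorem isFrac_normL_sub_one (ℓ : ℕ) [NeZero ℓ] (z : Aˣ) (hz : IsPrimitiveRoot (z : A) ℓ)
    (hUF : ∀ u : LaurentSeries L, u ∈ F → normL ℓ u ∈ F)
    (c c' : A) (hc : c' ∣ c) (hℓ : c' ∣ (ℓ : A)) (hcc' : c * c' ≠ 0)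
    (x y : LaurentSeries L) (hxF : x ∈ F) (a b : LaurentSeries A) (hy : IsFrac A F y a b)
    (hx : x = 1 + HahnSeries.single 0 (c : L) * y) :
    ∃ (y' : LaurentSeries L) (a' b' : LaurentSeries A), IsFrac A F y' a' b' ∧
      normL ℓ x = 1 + HahnSeries.single 0 ((c * c' : A) : L) * y' := by
  obtain ⟨ha, hb, hb0, hyab⟩ := hy
  obtain ⟨c'', rfl⟩ := hc
  obtain ⟨ℓ', hℓ'⟩ := hℓ
  obtain ⟨s, w, hsw⟩ := normL_add_single_mul ℓ z hz a b (c' * c'')
  -- the new numerator and denominator
  set a' : LaurentSeries A :=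
    HahnSeries.single 0 ℓ' * s + HahnSeries.single 0 c'' * w with ha'
  set b' : LaurentSeries A := normL ℓ b with hb'
  have hkey : normL ℓ (b + HahnSeries.single 0 (c' * c'') * a) =
      b' + HahnSeries.single 0 (c' * c'' * c') * a' := by
    have e1 : (HahnSeries.single 0 (c' * c'' * c') : LaurentSeries A) * HahnSeries.single 0 ℓ' =
        HahnSeries.single 0 (c' * c'' * (c' * ℓ')) := by
      rw [HahnSeries.single_mul_single, zero_add]
      congr 1
      ring
    have e2 : (HahnSeries.single 0 (c' * c'' * c') : LaurentSeries A) * HahnSeries.single 0 c'' =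
        HahnSeries.single 0 ((c' * c'') ^ 2) := by
      rw [HahnSeries.single_mul_single, zero_add]
      congr 1
      ring
    rw [hsw, hℓ', ha', mul_add,
      ← mul_assoc (HahnSeries.single 0 (c' * c'' * c') : LaurentSeries A) (HahnSeries.single 0 ℓ') s,
      ← mul_assoc (HahnSeries.single 0 (c' * c'' * c') : LaurentSeries A) (HahnSeries.single 0 c'') w,
      e1, e2, add_assoc]
  -- `x * emb b = emb (b + c a)`
  have hxb : x * emb A b = emb A (b + HahnSeries.single 0 (c' * c'') * a) := by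
    rw [hx, map_add, map_mul, emb_single, add_mul, one_mul, mul_assoc, hyab]
  have hN : normL ℓ x * emb A b' = emb A b' +
      HahnSeries.single 0 ((c' * c'' * c' : A) : L) * emb A a' := by
    rw [hb', emb_normL, ← normL_mul, hxb, ← emb_normL, hkey, map_add, map_mul, emb_single,
      hb', emb_normL]
  have hcL : (HahnSeries.single 0 ((c' * c'' * c' : A) : L) : LaurentSeries L) ≠ 0 := by
    apply HahnSeries.single_ne_zero
    intro h0
    exact hcc' (Subtype.ext h0)
  have hb'F : emb A b' ∈ F := by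
    rw [hb', emb_normL]
    exact hUF _ hb
  have hrd : rd A b' ≠ 0 := by
    rw [hb', rd_normL]
    exact normL_ne_zero_of_field ℓ hb0
  have hb'0 : emb A b' ≠ 0 := by
    intro h0
    apply hrd
    have : b' = 0 := emb_injective A (by rw [h0, map_zero])
    rw [this, map_zero]
  set y' : LaurentSeries L :=
    (normL ℓ x - 1) / HahnSeries.single 0 ((c' * c'' * c' : A) : L) with hy'
  have hy'F : y' ∈ F :=
    div_mem (sub_mem (hUF x hxF) (one_mem F)) (single_mem _)
  have hy'b : y' * emb A b' = emb A a' := by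
    rw [hy', div_mul_eq_mul_div, sub_mul, one_mul, hN, add_sub_cancel_left,
      mul_div_assoc, mul_comm, div_mul_cancel₀ _ hcL]
  refine ⟨y', a', b', ⟨?_, hb'F, hrd, hy'b⟩, ?_⟩
  · rw [← hy'b]
    exact mul_mem hy'F hb'F
  · rw [hy', mul_div_cancel₀ _ hcL]
    ring

/-- roots of unity of the ambient field lie in every valuation subring -/
theorem mem_of_pow_eq_one (A : ValuationSubring L) {x : L} {n : ℕ} (hn : n ≠ 0)
    (hx : x ^ n = 1) : x ∈ A := by
  rw [← A.valuation_le_one_iff]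
  have h1 : A.valuation x ^ n = 1 := by rw [← map_pow, hx, map_one]
  by_contra hlt
  rw [not_le] at hlt
  have := one_lt_pow' hlt hn
  rw [h1] at this
  exact lt_irrefl _ this

variable (hGF : HasGaussFrac A F)

/-- **`U`-depth lemma on the Gauss valuation ring.** `U : F → F` with `q`-expansion `normL ℓ`,
`ζ : L` a primitive `ℓ`-th root of unity, `c' ∣ c` and `c' ∣ ℓ` in `A`:
`x = 1 + c y`, `y ∈ Rw`  ⟹  `U x = 1 + c c' y'`, `y' ∈ Rw`. -/
theorem exists_mem_Rw_normL_sub_one (ℓ : ℕ) [NeZero ℓ] {ζ : L} (hζ : IsPrimitiveRoot ζ ℓ)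
    (U : F → F) (hU : ∀ u : F, ((U u : F) : LaurentSeries L) = normL ℓ (u : LaurentSeries L))
    (c c' : A) (hc : c' ∣ c) (hℓ : c' ∣ (ℓ : A)) (hcc' : c * c' ≠ 0)
    (x : F) (y : Rw A F hGF)
    (hx : x = 1 + algebraMap L F (c : L) * (y : F)) :
    ∃ y' : Rw A F hGF, U x = 1 + algebraMap L F ((c * c' : A) : L) * (y' : F) := by
  have hℓ0 : ℓ ≠ 0 := NeZero.ne ℓ
  have hζA : ζ ∈ A := mem_of_pow_eq_one A hℓ0 hζ.pow_eq_one
  have hζinvA : ζ⁻¹ ∈ A := mem_of_pow_eq_one A hℓ0 (by rw [inv_pow, hζ.pow_eq_one, inv_one])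
  have hζ0 : ζ ≠ 0 := hζ.ne_zero hℓ0
  let z : Aˣ := ⟨⟨ζ, hζA⟩, ⟨ζ⁻¹, hζinvA⟩, Subtype.ext (mul_inv_cancel₀ hζ0),
    Subtype.ext (inv_mul_cancel₀ hζ0)⟩
  have hz : IsPrimitiveRoot (z : A) ℓ := by
    have h1 : IsPrimitiveRoot (A.subtype (z : A)) ℓ := hζ
    exact IsPrimitiveRoot.of_map_of_injective (f := A.subtype) h1 Subtype.val_injective
  have hUF : ∀ u : LaurentSeries L, u ∈ F → normL ℓ u ∈ F := by
    intro u hu
    rw [← hU ⟨u, hu⟩]
    exact (U ⟨u, hu⟩).2
  obtain ⟨a, b, hy⟩ := y.2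
  have hxL : (x : LaurentSeries L) =
      1 + HahnSeries.single 0 (c : L) * (((y : F)) : LaurentSeries L) := by
    rw [hx, ← algebraMap_laurentSeries_eq_single]
    rfl
  obtain ⟨y', a', b', hy', hN⟩ :=
    isFrac_normL_sub_one ℓ z hz hUF c c' hc hℓ hcc' (x : LaurentSeries L) _ x.2 a b hy hxL
  have hy'F : y' ∈ F := by
    obtain ⟨ha', hb', hrd, hyb⟩ := hy'
    have hb'0 : emb A b' ≠ 0 := by
      intro h0
      apply hrd
      have : b' = 0 := emb_injective A (by rw [h0, map_zero])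
      rw [this, map_zero]
    have : y' = emb A a' / emb A b' := by
      rw [← hyb, mul_div_assoc, div_self hb'0, mul_one]
    rw [this]
    exact div_mem ha' hb'
  refine ⟨⟨⟨y', hy'F⟩, a', b', hy'⟩, ?_⟩
  apply Subtype.ext
  rw [hU, hN, ← algebraMap_laurentSeries_eq_single]
  rfl

end Fermat.Agent.GF.NormDepth.U
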