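import Mathlib
import Fermat.Agent.GF.NormDepth.DeepRep

/-!
# GATE-F / GF-NORMDEPTH-UDEPTH, file 3: the abstract frame of the `U`-depth iteration

`GaussLike A R ℓ U` : `F` a field over `L`, `A` a valuation subring of `L`, `R` a valuation
subring of `F`, unramified over `A`, with `R ∩ L = A`, and a map `U : F → F`, `U 1 = 1`,
satisfying the ALGEBRAIC depth lemma
  `x = 1 + c y`, `y ∈ R`, `c' ∣ c`, `c' ∣ ℓ` in `A`  ⟹  `U x = 1 + c c' y'`, `y' ∈ R`.
Consequences (with `v := R.valuation`):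

* `GaussLike.val_U_sub_one_le` : `v (x - 1) ≤ 1 → v (U x - 1) ≤ max (v ℓ) (v (x - 1)) * v (x - 1)`;
* `GaussLike.gain` : the gain hypothesis of the depth iteration;
* `GaussLike.exists_deep_rep`, `GaussLike.exists_deep_rep_inv` : deep representatives modulo
  `p`-th powers of the units `ξ` with `ξ = T ξ * c ^ p`, resp. `ξ * T ξ = c ^ p`;
* `GaussLike.comap` : transport along an `L`-automorphism `W` of `F`
  (`R' = W⁻¹ R`, `U' = W⁻¹ U W`): the second Gauss valuation.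
-/

namespace Fermat.Agent.GF.NormDepth.U

open Fermat.Agent.GF.NormDepth

variable {L F : Type*} [Field L] [Field F] [Algebra L F]

/-- the abstract frame: see the file header -/
structure GaussLike (A : ValuationSubring L) (R : ValuationSubring F) (ℓ : ℕ) (U : F → F) :
    Prop where
  unram : ∀ x : F, x ≠ 0 →
    ∃ c : L, c ≠ 0 ∧ x / algebraMap L F c ∈ R ∧ (x / algebraMap L F c)⁻¹ ∈ R
  const_mem : ∀ c : L, algebraMap L F c ∈ R ↔ c ∈ A
  map_one : U 1 = 1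
  depth : ∀ c c' : A, c' ∣ c → c' ∣ ((ℓ : ℕ) : A) → c * c' ≠ 0 → ∀ x y : F, y ∈ R →
    x = 1 + algebraMap L F (c : L) * y →
      ∃ y' : F, y' ∈ R ∧ U x = 1 + algebraMap L F ((c * c' : A) : L) * y'

namespace GaussLike

variable {A : ValuationSubring L} {R : ValuationSubring F} {ℓ : ℕ} {U : F → F}

theorem val_algebraMap_le_one_iff (H : GaussLike A R ℓ U) (c : L) :
    R.valuation (algebraMap L F c) ≤ 1 ↔ c ∈ A := by
  rw [ValuationSubring.valuation_le_one_iff, H.const_mem]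

/-- **`U`-depth lemma, valuation form.** -/
theorem val_U_sub_one_le (H : GaussLike A R ℓ U) (x : F) (hx : R.valuation (x - 1) ≤ 1) :
    R.valuation (U x - 1) ≤
      max (R.valuation ((ℓ : ℕ) : F)) (R.valuation (x - 1)) * R.valuation (x - 1) := by
  set v := R.valuation with hv
  have key : ∀ a b y : F, v y ≤ 1 → v (a * b * y) ≤ v b * v a := by
    intro a b y hy
    rw [map_mul, map_mul, mul_comm (v a) (v b)]
    calc v b * v a * v y ≤ v b * v a * 1 := mul_le_mul' le_rfl hy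
      _ = v b * v a := mul_one _
  by_cases hx1 : x = 1
  · rw [hx1, H.map_one, sub_self, map_zero]
    exact zero_le
  have hne : x - 1 ≠ 0 := sub_ne_zero.mpr hx1
  obtain ⟨c, hc0, h1, h2⟩ := H.unram (x - 1) hne
  have hac0 : algebraMap L F c ≠ 0 := (map_ne_zero _).mpr hc0
  set y : F := (x - 1) / algebraMap L F c with hy
  have hvy : v y = 1 := by
    have h1' : v y ≤ 1 := (ValuationSubring.valuation_le_one_iff _ _).mpr h1
    have h2' : v y⁻¹ ≤ 1 := (ValuationSubring.valuation_le_one_iff _ _).mpr h2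
    have hy0 : y ≠ 0 := div_ne_zero hne hac0
    rw [map_inv₀] at h2'
    have h3 : 1 ≤ v y := by
      have hvy0 : v y ≠ 0 := (Valuation.ne_zero_iff v).mpr hy0
      exact (inv_le_one₀ (zero_lt_iff.mpr hvy0)).mp h2'
    exact le_antisymm h1' h3
  have hxc : x - 1 = algebraMap L F c * y := by
    rw [hy, mul_div_cancel₀ _ hac0]
  have hvx : v (x - 1) = v (algebraMap L F c) := by
    rw [hxc, map_mul, hvy, mul_one]
  have hcA : c ∈ A := (H.val_algebraMap_le_one_iff c).mp (hvx ▸ hx)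
  have hx' : x = 1 + algebraMap L F (((⟨c, hcA⟩ : A)) : L) * y := by
    show x = 1 + algebraMap L F c * y
    rw [← hxc]; ring
  have hcast : ((ℓ : ℕ) : F) = algebraMap L F ((ℓ : ℕ) : L) := (map_natCast _ ℓ).symm
  have hcastA : (((ℓ : ℕ) : A) : L) = ((ℓ : ℕ) : L) := by
    simp
  rw [hvx]
  by_cases hcase : v ((ℓ : ℕ) : F) ≤ v (algebraMap L F c)
  · -- `c ∣ ℓ` in `A`; take `c' = c`
    have hdiv : ((ℓ : ℕ) : L) / c ∈ A := by
      rw [← H.val_algebraMap_le_one_iff, map_div₀, map_div₀, ← hcast]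
      exact div_le_one_of_le₀ hcase zero_le
    have hℓ : (⟨c, hcA⟩ : A) ∣ ((ℓ : ℕ) : A) := by
      refine ⟨⟨((ℓ : ℕ) : L) / c, hdiv⟩, ?_⟩
      apply Subtype.ext
      show (((ℓ : ℕ) : A) : L) = c * (((ℓ : ℕ) : L) / c)
      rw [hcastA, mul_div_cancel₀ _ hc0]
    have hcc : (⟨c, hcA⟩ : A) * ⟨c, hcA⟩ ≠ 0 := by
      intro h0
      have := congrArg (fun t : A => (t : L)) h0
      exact mul_ne_zero hc0 hc0 this
    obtain ⟨y', hy'R, hy'⟩ := H.depth ⟨c, hcA⟩ ⟨c, hcA⟩ (dvd_refl _) hℓ hcc x y h1 hx'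
    have hy1 : v y' ≤ 1 := (ValuationSubring.valuation_le_one_iff _ _).mpr hy'R
    have this2 : U x - 1 = algebraMap L F c * algebraMap L F c * y' := by
      rw [hy']
      show 1 + algebraMap L F (c * c) * y' - 1 = _
      rw [map_mul]; ring
    rw [this2, max_eq_right hcase]
    exact key _ _ _ hy1
  · -- `ℓ ∣ c` in `A`; take `c' = ℓ`
    rw [not_le] at hcase
    have hℓ0 : ((ℓ : ℕ) : L) ≠ 0 := by
      intro h0
      rw [hcast, h0, map_zero, map_zero] at hcase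
      exact not_lt.mpr zero_le hcase
    have hdiv : c / ((ℓ : ℕ) : L) ∈ A := by
      rw [← H.val_algebraMap_le_one_iff, map_div₀, map_div₀, ← hcast]
      exact div_le_one_of_le₀ hcase.le zero_le
    have hc : (((ℓ : ℕ) : A)) ∣ (⟨c, hcA⟩ : A) := by
      refine ⟨⟨c / ((ℓ : ℕ) : L), hdiv⟩, ?_⟩
      apply Subtype.ext
      show c = (((ℓ : ℕ) : A) : L) * (c / ((ℓ : ℕ) : L))
      rw [hcastA, mul_div_cancel₀ _ hℓ0]
    have hcc : (⟨c, hcA⟩ : A) * ((ℓ : ℕ) : A) ≠ 0 := by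
      intro h0
      have := congrArg (fun t : A => (t : L)) h0
      simp only [MulMemClass.coe_mul, ZeroMemClass.coe_zero] at this
      rw [hcastA] at this
      exact mul_ne_zero hc0 hℓ0 this
    obtain ⟨y', hy'R, hy'⟩ := H.depth ⟨c, hcA⟩ ((ℓ : ℕ) : A) hc (dvd_refl _) hcc x y h1 hx'
    have hy1 : v y' ≤ 1 := (ValuationSubring.valuation_le_one_iff _ _).mpr hy'R
    have this2 : U x - 1 = algebraMap L F c * ((ℓ : ℕ) : F) * y' := by
      rw [hy']
      show 1 + algebraMap L F (c * (((ℓ : ℕ) : A) : L)) * y' - 1 = _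
      rw [hcastA, map_mul, hcast]; ring
    rw [this2, max_eq_left hcase.le]
    exact key _ _ _ hy1

/-- the gain hypothesis of the depth iteration for any `T : Fˣ →* Fˣ` inducing `U`. -/
theorem gain (H : GaussLike A R ℓ U) (T : Fˣ →* Fˣ) (hT : ∀ u : Fˣ, ((T u : Fˣ) : F) = U (u : F))
    {δ₀ : R.ValueGroup} (hδ₀ : δ₀ ≤ 1) (u : Fˣ) (hu : R.valuation ((u : F) - 1) ≤ δ₀) :
    R.valuation (((T u : Fˣ) : F) - 1) ≤
      max (R.valuation ((ℓ : ℕ) : F)) δ₀ * R.valuation ((u : F) - 1) := by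
  rw [hT]
  refine (H.val_U_sub_one_le (u : F) (hu.trans hδ₀)).trans ?_
  exact mul_le_mul' (max_le_max le_rfl hu) le_rfl

theorem max_val_natCast_le_one (R : ValuationSubring F) (ℓ : ℕ) {δ₀ : R.ValueGroup}
    (hδ₀ : δ₀ ≤ 1) : max (R.valuation ((ℓ : ℕ) : F)) δ₀ ≤ 1 := by
  refine max_le ?_ hδ₀
  rw [ValuationSubring.valuation_le_one_iff]
  exact natCast_mem _ ℓ

/-- **Deep representatives, sign `+`.** -/
theorem exists_deep_rep (H : GaussLike A R ℓ U) (T : Fˣ →* Fˣ)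
    (hT : ∀ u : Fˣ, ((T u : Fˣ) : F) = U (u : F)) (p : ℕ) {δ₀ : R.ValueGroup} (hδ₀ : δ₀ ≤ 1)
    (ξ : Fˣ) (h0 : R.valuation ((ξ : F) - 1) ≤ δ₀) (hξ : ∃ c : Fˣ, ξ = T ξ * c ^ p) (n : ℕ) :
    ∃ z d : Fˣ, ξ = z * d ^ p ∧
      R.valuation ((z : F) - 1) ≤ max (R.valuation ((ℓ : ℕ) : F)) δ₀ ^ n * δ₀ :=
  exists_deep_rep_of_gain R.valuation p T (max_val_natCast_le_one R ℓ hδ₀)
    (fun u hu => H.gain T hT hδ₀ u hu) ξ h0 hξ n

/-- **Deep representatives, sign `−`** (`ξ * T ξ` a `p`-th power). -/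
theorem exists_deep_rep_inv (H : GaussLike A R ℓ U) (T : Fˣ →* Fˣ)
    (hT : ∀ u : Fˣ, ((T u : Fˣ) : F) = U (u : F)) (p : ℕ) {δ₀ : R.ValueGroup} (hδ₀ : δ₀ < 1)
    (ξ : Fˣ) (h0 : R.valuation ((ξ : F) - 1) ≤ δ₀) (hξ : ∃ c : Fˣ, ξ * T ξ = c ^ p) (n : ℕ) :
    ∃ z d : Fˣ, ξ = z * d ^ p ∧
      R.valuation ((z : F) - 1) ≤ max (R.valuation ((ℓ : ℕ) : F)) δ₀ ^ n * δ₀ := by
  have hε := max_val_natCast_le_one R ℓ hδ₀.le
  refine exists_deep_rep_of_gain R.valuation p T⁻¹ hε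
    (fun u hu => gain_inv R.valuation T hε hδ₀
      (fun u hu => H.gain T hT hδ₀.le u hu) u hu) ξ h0 ?_ n
  obtain ⟨c, hc⟩ := hξ
  refine ⟨c, ?_⟩
  rw [MonoidHom.inv_apply, ← hc, mul_comm ξ, ← mul_assoc, inv_mul_cancel, one_mul]

/-- **Transport along an `L`-automorphism `W` of `F`**: `R' = W⁻¹(R)`, `U' = W⁻¹ ∘ U ∘ W`. -/
theorem comap (H : GaussLike A R ℓ U) (W : F ≃ₐ[L] F) :
    GaussLike A (R.comap ((W : F ≃+* F) : F →+* F)) ℓ (fun x => W.symm (U (W x))) where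
  unram := by
    intro x hx
    have hWx : W x ≠ 0 := (map_ne_zero W).mpr hx
    obtain ⟨c, hc0, h1, h2⟩ := H.unram (W x) hWx
    refine ⟨c, hc0, ?_, ?_⟩
    · show W (x / algebraMap L F c) ∈ R
      rw [map_div₀, AlgEquiv.commutes]
      exact h1
    · show W ((x / algebraMap L F c)⁻¹) ∈ R
      rw [map_inv₀, map_div₀, AlgEquiv.commutes]
      exact h2
  const_mem := by
    intro c
    show W (algebraMap L F c) ∈ R ↔ c ∈ A
    rw [AlgEquiv.commutes]
    exact H.const_mem c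
  map_one := by
    show W.symm (U (W 1)) = 1
    rw [_root_.map_one, H.map_one, _root_.map_one]
  depth := by
    intro c c' hc hℓ hcc x y hy hx
    have hx' : W x = 1 + algebraMap L F (c : L) * W y := by
      rw [hx, map_add, _root_.map_one, map_mul, AlgEquiv.commutes]
    obtain ⟨y', hy'R, hy'⟩ := H.depth c c' hc hℓ hcc (W x) (W y) hy hx'
    refine ⟨W.symm y', ?_, ?_⟩
    · show W (W.symm y') ∈ R
      rw [AlgEquiv.apply_symm_apply]
      exact hy'R
    · show W.symm (U (W x)) = _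
      rw [hy', map_add, _root_.map_one, map_mul, AlgEquiv.commutes]

end GaussLike

end Fermat.Agent.GF.NormDepth.U
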