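import Mathlib
import Fermat.Agent.GF.NormDepth.U.Gauss
import Fermat.Agent.GF.NormDepth.U.GaussLike

/-!
# GATE-F / GF-NORMDEPTH-UDEPTH, file 4: the Gauss valuation ring is `GaussLike`

`gaussLike_Rw` : in the generic Gauss frame (`L`, `A`, `F ≤ L((q))`, `hGF`), for `U : F → F`
with `q`-expansion `normL ℓ` and `ζ_ℓ ∈ L`, the Gauss valuation ring `Rw A F hGF` satisfies
`GaussLike A (Rw A F hGF) ℓ U`.
-/

namespace Fermat.Agent.GF.NormDepth.U

open HahnSeries ModularCurve
open Fermat.Agent.GJ.Kum Fermat.Agent.GJ.J1.Val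

variable {L : Type*} [Field L] {A : ValuationSubring L}
  {F : IntermediateField L (LaurentSeries L)} (hGF : HasGaussFrac A F)

theorem gaussLike_Rw (ℓ : ℕ) [NeZero ℓ] {ζ : L} (hζ : IsPrimitiveRoot ζ ℓ)
    (U : F → F) (hU : ∀ u : F, ((U u : F) : LaurentSeries L) = normL ℓ (u : LaurentSeries L)) :
    GaussLike A (Rw A F hGF) ℓ U where
  unram := fun x hx => unramified A F hGF x hx
  const_mem := fun c => algebraMap_mem_Rw_iff c
  map_one := by
    apply Subtype.ext
    rw [hU]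
    exact normL_one ℓ
  depth := by
    intro c c' hc hℓ hcc x y hy hx
    obtain ⟨y', hy'⟩ := exists_mem_Rw_normL_sub_one hGF ℓ hζ U hU c c' hc hℓ hcc x ⟨y, hy⟩ hx
    exact ⟨y', y'.2, hy'⟩

end Fermat.Agent.GF.NormDepth.U
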