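import Mathlib
import Fermat.Agent.GF.NormDepth.U.GaussInst
import Fermat.Agent.GK.UQ.KumU
import Fermat.Agent.GK.AL.SecondVal

/-!
# GATE-F / GF-NORMDEPTH-UDEPTH, file 5: the modular instance, both components

`F = ℚ̄(X₀(N))`, `q ∣ N` prime, `A` a valuation subring of `ℚ̄`.

* component 1: `R₁ := RwBar N A = (redDataBar N A).Rw`, `U := uNormF N q` (helper86's multiplicative
  `U_q`), `T := uNormUnits hqN`;
* component 2 (`q ∥ N`): `R₂ := (redData2 N A h).Rw = R₁.comap W_q`, `U₂ := W_q ∘ U ∘ W_q`,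
  `T₂ := uNormUnits₂ h`.

`gaussLike_one`, `gaussLike_two` : both are `GaussLike`, hence (file `GaussLike.lean`)
`val_U_sub_one_le`, `gain`, `exists_deep_rep`, `exists_deep_rep_inv` apply verbatim:
a unit `ξ` with `v_i (ξ - 1) ≤ δ₀ < 1` and `ξ ≡ (T_i ξ)^{±1}` modulo `p`-th powers has, for
every `n`, a representative `z` modulo `p`-th powers with
`v_i (z - 1) ≤ (max (v_i q) δ₀) ^ n * δ₀`.
-/

namespace Fermat.Agent.GF.NormDepth.U

open ModularCurve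
open Fermat.Agent.S24 Fermat.Agent.S24_helper62
open Fermat.Agent.GJ.Kum Fermat.Agent.GJ.J1.Val Fermat.Agent.GK.UQ Fermat.Agent.GK.AL

variable {N q : ℕ} [NeZero N] [Fact q.Prime] (A : ValuationSubring Kbar)

theorem isPrimitiveRoot_zetaBar_coe (q : ℕ) [NeZero q] :
    IsPrimitiveRoot ((zetaBar q : Kbarˣ) : Kbar) q :=
  IsPrimitiveRoot.coe_units_iff.mpr (zetaBar_isPrimitiveRoot q)

/-- **component 1** -/
theorem gaussLike_one (hqN : q ∣ N) : GaussLike A (RwBar N A) q (uNormF N q) :=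
  gaussLike_Rw (hasGaussFrac_bar N A) q (isPrimitiveRoot_zetaBar_coe q)
    (uNormF N q) (coe_uNormF hqN)

/-- `U_q` conjugated by the Atkin–Lehner involution -/
noncomputable def uNormF₂ (h : ExactDvd q N) (x : FN N) : FN N :=
  (wAut h).symm (uNormF N q (wAut h x))

/-- **component 2** -/
theorem gaussLike_two (h : ExactDvd q N) :
    GaussLike A (redData2 N A h).Rw q (uNormF₂ h) :=
  (gaussLike_one A h.dvd).comap (wAut h)

/-- the conjugated `U_q` on units -/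
noncomputable def uNormUnits₂ (h : ExactDvd q N) : (FN N)ˣ →* (FN N)ˣ :=
  ((Units.map (((wAut h).symm : FN N ≃+* FN N) : FN N →* FN N)).comp (uNormUnits h.dvd)).comp
    (Units.map (((wAut h) : FN N ≃+* FN N) : FN N →* FN N))

theorem coe_uNormUnits₂ (h : ExactDvd q N) (u : (FN N)ˣ) :
    ((uNormUnits₂ h u : (FN N)ˣ) : FN N) = uNormF₂ h (u : FN N) := rfl

/-- `U_q`-depth on component 1 -/
theorem val_uNormF_sub_one_le (hqN : q ∣ N) (x : FN N)
    (hx : (RwBar N A).valuation (x - 1) ≤ 1) :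
    (RwBar N A).valuation (uNormF N q x - 1) ≤
      max ((RwBar N A).valuation ((q : ℕ) : FN N)) ((RwBar N A).valuation (x - 1)) *
        (RwBar N A).valuation (x - 1) :=
  (gaussLike_one A hqN).val_U_sub_one_le x hx

/-- deep representatives on component 1, sign `+` -/
theorem exists_deep_rep_one (hqN : q ∣ N) (p : ℕ) {δ₀ : (RwBar N A).ValueGroup}
    (hδ₀ : δ₀ ≤ 1) (ξ : (FN N)ˣ) (h0 : (RwBar N A).valuation ((ξ : FN N) - 1) ≤ δ₀)
    (hξ : ∃ c : (FN N)ˣ, ξ = uNormUnits hqN ξ * c ^ p) (n : ℕ) :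
    ∃ z d : (FN N)ˣ, ξ = z * d ^ p ∧
      (RwBar N A).valuation ((z : FN N) - 1) ≤
        max ((RwBar N A).valuation ((q : ℕ) : FN N)) δ₀ ^ n * δ₀ :=
  (gaussLike_one A hqN).exists_deep_rep (uNormUnits hqN) (fun _ => rfl) p hδ₀ ξ h0 hξ n

/-- deep representatives on component 1, sign `−` -/
theorem exists_deep_rep_one_inv (hqN : q ∣ N) (p : ℕ) {δ₀ : (RwBar N A).ValueGroup}
    (hδ₀ : δ₀ < 1) (ξ : (FN N)ˣ) (h0 : (RwBar N A).valuation ((ξ : FN N) - 1) ≤ δ₀)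
    (hξ : ∃ c : (FN N)ˣ, ξ * uNormUnits hqN ξ = c ^ p) (n : ℕ) :
    ∃ z d : (FN N)ˣ, ξ = z * d ^ p ∧
      (RwBar N A).valuation ((z : FN N) - 1) ≤
        max ((RwBar N A).valuation ((q : ℕ) : FN N)) δ₀ ^ n * δ₀ :=
  (gaussLike_one A hqN).exists_deep_rep_inv (uNormUnits hqN) (fun _ => rfl) p hδ₀ ξ h0 hξ n

/-- deep representatives on component 2, sign `+` -/
theorem exists_deep_rep_two (h : ExactDvd q N) (p : ℕ)
    {δ₀ : (redData2 N A h).Rw.ValueGroup} (hδ₀ : δ₀ ≤ 1) (ξ : (FN N)ˣ)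
    (h0 : (redData2 N A h).Rw.valuation ((ξ : FN N) - 1) ≤ δ₀)
    (hξ : ∃ c : (FN N)ˣ, ξ = uNormUnits₂ h ξ * c ^ p) (n : ℕ) :
    ∃ z d : (FN N)ˣ, ξ = z * d ^ p ∧
      (redData2 N A h).Rw.valuation ((z : FN N) - 1) ≤
        max ((redData2 N A h).Rw.valuation ((q : ℕ) : FN N)) δ₀ ^ n * δ₀ :=
  (gaussLike_two A h).exists_deep_rep (uNormUnits₂ h) (coe_uNormUnits₂ h) p hδ₀ ξ h0 hξ n

/-- deep representatives on component 2, sign `−` -/
theorem exists_deep_rep_two_inv (h : ExactDvd q N) (p : ℕ)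
    {δ₀ : (redData2 N A h).Rw.ValueGroup} (hδ₀ : δ₀ < 1) (ξ : (FN N)ˣ)
    (h0 : (redData2 N A h).Rw.valuation ((ξ : FN N) - 1) ≤ δ₀)
    (hξ : ∃ c : (FN N)ˣ, ξ * uNormUnits₂ h ξ = c ^ p) (n : ℕ) :
    ∃ z d : (FN N)ˣ, ξ = z * d ^ p ∧
      (redData2 N A h).Rw.valuation ((z : FN N) - 1) ≤
        max ((redData2 N A h).Rw.valuation ((q : ℕ) : FN N)) δ₀ ^ n * δ₀ :=
  (gaussLike_two A h).exists_deep_rep_inv (uNormUnits₂ h) (coe_uNormUnits₂ h) p hδ₀ ξ h0 hξ n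

end Fermat.Agent.GF.NormDepth.U
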