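import Mathlib
import Fermat.Agent.GF.NormDepth.Const
import Fermat.Agent.GF.NormDepth.U.Modular
import Fermat.Agent.GK.AL.WGal

/-!
# GATE-F / GF-NORMDEPTH-CONST, file 2: the constant-carrying iteration on a `GaussLike` frame,
and on the modular frame, inside the Galois-fixed (`K'`-rational) units

* `GaussLike.comp` : `GaussLike` is stable under composition (`T = U ∘ U`);
* `GaussLike.exists_deep_rep_const(_mem)` : `ξ = b * c ^ p * T ξ`, `ξ = a₀ * z₀ * d₀ ^ p`,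
  `v (z₀ - 1) ≤ δ₀ ≤ 1`, `T b`, `T a₀` `p`-th powers  ⟹  for every `n`, `ξ = b * z * d ^ p`,
  `v (z - 1) ≤ max (v ℓ) δ₀ ^ (n + 1) * δ₀`; everything inside a `T`-stable subgroup `S`;
* modular frame: `constUnits`, `uNormF_algebraMap` (`U_q a = a ^ q` on constants),
  `uNormUnits_constUnits`, `uNormUnits₂_constUnits`, `fixedUnits N H` (units fixed by the
  coefficientwise action of `H ⊆ G_ℚ`: the `K'`-rational units, `K' = ℚ̄^H`), stable under
  `U_q`, `W_q`, `W_q U_q W_q`, containing the `H`-fixed constants;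
* `uSq hqN`, `uSq₂ h` : `T = U ∘ U` on both components, `gaussLike_one_sq`, `gaussLike_two_sq`,
  `exists_deep_rep_one_sq_const`, `exists_deep_rep_two_sq_const` : the final statements.
-/

set_option linter.unusedSectionVars false

namespace Fermat.Agent.GF.NormDepth.U

open Fermat.Agent.GF.NormDepth

section Abstract

variable {L F : Type*} [Field L] [Field F] [Algebra L F]

namespace GaussLike

variable {A : ValuationSubring L} {R : ValuationSubring F} {ℓ : ℕ} {U U' : F → F}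

/-- `GaussLike` is stable under composition. -/
theorem comp (H : GaussLike A R ℓ U) (H' : GaussLike A R ℓ U') :
    GaussLike A R ℓ (fun x => U' (U x)) where
  unram := H.unram
  const_mem := H.const_mem
  map_one := by
    show U' (U 1) = 1
    rw [H.map_one, H'.map_one]
  depth := by
    intro c c' hc hℓ hcc x y hy hx
    obtain ⟨y1, hy1R, hy1⟩ := H.depth c c' hc hℓ hcc x y hy hx
    have hc'0 : c' ≠ 0 := right_ne_zero_of_mul hcc
    have hcc' : (c * c') * c' ≠ 0 := mul_ne_zero hcc hc'0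
    obtain ⟨y2, hy2R, hy2⟩ :=
      H'.depth (c * c') c' (Dvd.intro_left c rfl) hℓ hcc' (U x) y1 hy1R hy1
    refine ⟨algebraMap L F (c' : L) * y2, R.mul_mem _ _ ((H.const_mem _).mpr c'.2) hy2R, ?_⟩
    show U' (U x) = 1 + algebraMap L F ((c : L) * (c' : L)) * (algebraMap L F (c' : L) * y2)
    rw [hy2]
    show 1 + algebraMap L F ((c : L) * (c' : L) * (c' : L)) * y2 = _
    rw [map_mul (algebraMap L F) ((c : L) * (c' : L))]
    ring

/-- **Deep representatives with a constant, inside a `T`-stable subgroup `S`.** -/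
theorem exists_deep_rep_const_mem (H : GaussLike A R ℓ U) (T : Fˣ →* Fˣ)
    (hT : ∀ u : Fˣ, ((T u : Fˣ) : F) = U (u : F)) (p : ℕ) (S : Subgroup Fˣ)
    (hS : ∀ x ∈ S, T x ∈ S) {δ₀ : R.ValueGroup} (hδ₀ : δ₀ ≤ 1)
    (ξ b c : Fˣ) (hcS : c ∈ S) (hξ : ξ = b * c ^ p * T ξ) (hb : ∃ e ∈ S, T b = e ^ p)
    (a₀ z₀ d₀ : Fˣ) (hz₀S : z₀ ∈ S) (hd₀S : d₀ ∈ S) (ha₀ : ∃ e ∈ S, T a₀ = e ^ p)
    (h0 : ξ = a₀ * z₀ * d₀ ^ p) (hz₀ : R.valuation ((z₀ : F) - 1) ≤ δ₀) (n : ℕ) :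
    ∃ z ∈ S, ∃ d ∈ S, ξ = b * z * d ^ p ∧
      R.valuation ((z : F) - 1) ≤ max (R.valuation ((ℓ : ℕ) : F)) δ₀ ^ (n + 1) * δ₀ :=
  exists_deep_rep_of_gain_const_mem R.valuation p T S hS (max_val_natCast_le_one R ℓ hδ₀)
    (fun u _ hu => H.gain T hT hδ₀ u hu) ξ b c hcS hξ hb a₀ z₀ d₀ hz₀S hd₀S ha₀ h0 hz₀ n

/-- **Deep representatives with a constant** (`S = ⊤`). -/
theorem exists_deep_rep_const (H : GaussLike A R ℓ U) (T : Fˣ →* Fˣ)
    (hT : ∀ u : Fˣ, ((T u : Fˣ) : F) = U (u : F)) (p : ℕ) {δ₀ : R.ValueGroup} (hδ₀ : δ₀ ≤ 1)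
    (ξ b c : Fˣ) (hξ : ξ = b * c ^ p * T ξ) (hb : ∃ e : Fˣ, T b = e ^ p)
    (a₀ z₀ d₀ : Fˣ) (ha₀ : ∃ e : Fˣ, T a₀ = e ^ p)
    (h0 : ξ = a₀ * z₀ * d₀ ^ p) (hz₀ : R.valuation ((z₀ : F) - 1) ≤ δ₀) (n : ℕ) :
    ∃ z d : Fˣ, ξ = b * z * d ^ p ∧
      R.valuation ((z : F) - 1) ≤ max (R.valuation ((ℓ : ℕ) : F)) δ₀ ^ (n + 1) * δ₀ :=
  exists_deep_rep_of_gain_const R.valuation p T (max_val_natCast_le_one R ℓ hδ₀)
    (fun u hu => H.gain T hT hδ₀ u hu) ξ b c hξ hb a₀ z₀ d₀ ha₀ h0 hz₀ n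

end GaussLike

end Abstract

/-! ### The modular frame -/

section Modular

open ModularCurve
open Fermat.Agent.S24 Fermat.Agent.S24_helper62
open Fermat.Agent.GJ.Kum Fermat.Agent.GJ.Kum.KumType Fermat.Agent.GJ.J1.Val
open Fermat.Agent.GK.UQ Fermat.Agent.GK.AL

local notation "GQ" => (AlgebraicClosure ℚ ≃ₐ[ℚ] AlgebraicClosure ℚ)

variable {N q : ℕ} [NeZero N] [Fact q.Prime]

/-- the constants as units of `F_N` -/
noncomputable def constUnits (N : ℕ) [NeZero N] : Kbarˣ →* (FN N)ˣ :=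
  Units.map ((algebraMap Kbar (FN N) : Kbar →+* FN N) : Kbar →* FN N)

@[simp] theorem coe_constUnits (a : Kbarˣ) :
    ((constUnits N a : (FN N)ˣ) : FN N) = algebraMap Kbar (FN N) (a : Kbar) := rfl

/-- **`U_q` on constants**: `U_q a = a ^ q`. -/
theorem uNormF_algebraMap (hqN : q ∣ N) (a : Kbar) :
    uNormF N q (algebraMap Kbar (FN N) a) = algebraMap Kbar (FN N) a ^ q := by
  apply Subtype.ext
  rw [coe_uNormF hqN]
  have hcoe : ((algebraMap Kbar (FN N) a : FN N) : LaurentSeries Kbar) = HahnSeries.C a := by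
    show algebraMap Kbar (LaurentSeries Kbar) a = HahnSeries.C a
    rw [algebraMap_laurentSeries_eq_single]
    rfl
  have hpow : (((algebraMap Kbar (FN N) a) ^ q : FN N) : LaurentSeries Kbar) =
      (HahnSeries.C a : LaurentSeries Kbar) ^ q := by
    rw [← hcoe]; rfl
  rw [hpow, hcoe, ← qExpand_C (N := q) (R := Kbar) a, normL_qExpand, qExpand_C]

theorem uNormUnits_constUnits (hqN : q ∣ N) (a : Kbarˣ) :
    uNormUnits hqN (constUnits N a) = constUnits N a ^ q := by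
  apply Units.ext
  show uNormF N q (algebraMap Kbar (FN N) (a : Kbar)) = _
  rw [uNormF_algebraMap hqN]
  rfl

theorem uNormUnits₂_constUnits (h : ExactDvd q N) (a : Kbarˣ) :
    uNormUnits₂ h (constUnits N a) = constUnits N a ^ q := by
  apply Units.ext
  rw [coe_uNormUnits₂]
  show (wAut h).symm (uNormF N q (wAut h (algebraMap Kbar (FN N) (a : Kbar)))) = _
  rw [AlgEquiv.commutes, uNormF_algebraMap h.dvd, map_pow, AlgEquiv.commutes]
  rfl

/-- `T = U_q ∘ U_q` on the units, component 1 -/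
noncomputable def uSq (hqN : q ∣ N) : (FN N)ˣ →* (FN N)ˣ :=
  (uNormUnits hqN).comp (uNormUnits hqN)

/-- `T₂ = (W U W) ∘ (W U W)` on the units, component 2 -/
noncomputable def uSq₂ (h : ExactDvd q N) : (FN N)ˣ →* (FN N)ˣ :=
  (uNormUnits₂ h).comp (uNormUnits₂ h)

theorem coe_uSq (hqN : q ∣ N) (u : (FN N)ˣ) :
    ((uSq hqN u : (FN N)ˣ) : FN N) = uNormF N q (uNormF N q (u : FN N)) := rfl

theorem coe_uSq₂ (h : ExactDvd q N) (u : (FN N)ˣ) :
    ((uSq₂ h u : (FN N)ˣ) : FN N) = uNormF₂ h (uNormF₂ h (u : FN N)) := rfl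

/-- on constants `T a = (a ^ q) ^ q`: in particular a `q`-th power -/
theorem uSq_constUnits (hqN : q ∣ N) (a : Kbarˣ) :
    uSq hqN (constUnits N a) = (constUnits N a ^ q) ^ q := by
  show uNormUnits hqN (uNormUnits hqN (constUnits N a)) = _
  rw [uNormUnits_constUnits, map_pow, uNormUnits_constUnits]

theorem uSq₂_constUnits (h : ExactDvd q N) (a : Kbarˣ) :
    uSq₂ h (constUnits N a) = (constUnits N a ^ q) ^ q := by
  show uNormUnits₂ h (uNormUnits₂ h (constUnits N a)) = _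
  rw [uNormUnits₂_constUnits, map_pow, uNormUnits₂_constUnits]

variable (A : ValuationSubring Kbar)

/-- `U ∘ U` on component 1 is `GaussLike` -/
theorem gaussLike_one_sq (hqN : q ∣ N) :
    GaussLike A (RwBar N A) q (fun x => uNormF N q (uNormF N q x)) :=
  (gaussLike_one A hqN).comp (gaussLike_one A hqN)

/-- `U₂ ∘ U₂` on component 2 is `GaussLike` -/
theorem gaussLike_two_sq (h : ExactDvd q N) :
    GaussLike A (redData2 N A h).Rw q (fun x => uNormF₂ h (uNormF₂ h x)) :=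
  (gaussLike_two A h).comp (gaussLike_two A h)

/-! #### Galois-fixed units -/

/-- the units of `F_N` fixed by the coefficientwise action of `H ⊆ G_ℚ`
(`= F_{K'}ˣ`, `K' = ℚ̄^H`) -/
def fixedUnits (N : ℕ) [NeZero N] (H : Set GQ) : Subgroup (FN N)ˣ where
  carrier := {u | ∀ σ ∈ H, galUnits N σ u = u}
  one_mem' := fun σ _ => map_one _
  mul_mem' := fun {a b} ha hb σ hσ => by rw [map_mul, ha σ hσ, hb σ hσ]
  inv_mem' := fun {a} ha σ hσ => by rw [map_inv, ha σ hσ]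

theorem mem_fixedUnits {H : Set GQ} {u : (FN N)ˣ} :
    u ∈ fixedUnits N H ↔ ∀ σ ∈ H, galUnits N σ u = u := Iff.rfl

/-- an `H`-fixed constant is an `H`-fixed unit -/
theorem constUnits_mem_fixedUnits (H : Set GQ) {a : Kbarˣ}
    (ha : ∀ σ ∈ H, σ (a : Kbar) = (a : Kbar)) : constUnits N a ∈ fixedUnits N H := by
  intro σ hσ
  apply Units.ext
  show galF N σ (algebraMap Kbar (FN N) (a : Kbar)) = algebraMap Kbar (FN N) (a : Kbar)
  rw [galF_algebraMap, ha σ hσ]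

/-- `U_q` preserves the `H`-fixed units -/
theorem uNormUnits_mem_fixedUnits (hqN : q ∣ N) (H : Set GQ) {u : (FN N)ˣ}
    (hu : u ∈ fixedUnits N H) : uNormUnits hqN u ∈ fixedUnits N H := by
  intro σ hσ
  rw [galUnits_uNormUnits, hu σ hσ]

/-- `W_q` on the units -/
noncomputable def wUnits (h : ExactDvd q N) : (FN N)ˣ →* (FN N)ˣ :=
  Units.map (((wAut h) : FN N ≃+* FN N) : FN N →* FN N)

theorem galUnits_wUnits (h : ExactDvd q N) (σ : GQ) (u : (FN N)ˣ) :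
    galUnits N σ (wUnits h u) = wUnits h (galUnits N σ u) := by
  apply Units.ext
  show arithmeticRingAut (modularFunctionFieldFull N) σ (wAut h (u : FN N)) =
    wAut h (arithmeticRingAut (modularFunctionFieldFull N) σ (u : FN N))
  exact (wAut_arithmeticRingAut h σ (u : FN N)).symm

/-- `W_q` preserves the `H`-fixed units -/
theorem wUnits_mem_fixedUnits (h : ExactDvd q N) (H : Set GQ) {u : (FN N)ˣ}
    (hu : u ∈ fixedUnits N H) : wUnits h u ∈ fixedUnits N H := by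
  intro σ hσ
  rw [galUnits_wUnits, hu σ hσ]

theorem wUnits_wUnits (h : ExactDvd q N) (u : (FN N)ˣ) : wUnits h (wUnits h u) = u := by
  apply Units.ext
  show wAut h (wAut h (u : FN N)) = (u : FN N)
  have := (wAut h).symm_apply_apply (u : FN N)
  rwa [wAut_symm] at this

theorem uNormUnits₂_eq (h : ExactDvd q N) (u : (FN N)ˣ) :
    uNormUnits₂ h u = wUnits h (uNormUnits h.dvd (wUnits h u)) := by
  apply Units.ext
  rw [coe_uNormUnits₂]
  show (wAut h).symm (uNormF N q (wAut h (u : FN N))) = wAut h (uNormF N q (wAut h (u : FN N)))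
  rw [wAut_symm]

/-- `W_q U_q W_q` preserves the `H`-fixed units -/
theorem uNormUnits₂_mem_fixedUnits (h : ExactDvd q N) (H : Set GQ) {u : (FN N)ˣ}
    (hu : u ∈ fixedUnits N H) : uNormUnits₂ h u ∈ fixedUnits N H := by
  rw [uNormUnits₂_eq]
  exact wUnits_mem_fixedUnits h H
    (uNormUnits_mem_fixedUnits h.dvd H (wUnits_mem_fixedUnits h H hu))

theorem uSq_mem_fixedUnits (hqN : q ∣ N) (H : Set GQ) {u : (FN N)ˣ}
    (hu : u ∈ fixedUnits N H) : uSq hqN u ∈ fixedUnits N H :=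
  uNormUnits_mem_fixedUnits hqN H (uNormUnits_mem_fixedUnits hqN H hu)

theorem uSq₂_mem_fixedUnits (h : ExactDvd q N) (H : Set GQ) {u : (FN N)ˣ}
    (hu : u ∈ fixedUnits N H) : uSq₂ h u ∈ fixedUnits N H :=
  uNormUnits₂_mem_fixedUnits h H (uNormUnits₂_mem_fixedUnits h H hu)

/-! #### The final statements: `T = U ∘ U`, constants, `H`-fixed units -/

/-- **component 1, `T = U_q ∘ U_q`, with a constant, `H`-rational.**
`ξ = b * c ^ p * T ξ`, `ξ = a₀ * z₀ * d₀ ^ p` with `b`, `a₀` constants, `c, z₀, d₀` `H`-fixed,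
`v₁ (z₀ - 1) ≤ δ₀ ≤ 1`; if `p = q` (or any `p ∣ q * q`-style `p`-th power property, see the
generic `GaussLike.exists_deep_rep_const_mem`) then for every `n`: `ξ = b * z * d ^ q`,
`z, d` `H`-fixed, `v₁ (z - 1) ≤ max (v₁ q) δ₀ ^ (n + 1) * δ₀`. -/
theorem exists_deep_rep_one_sq_const (hqN : q ∣ N) (H : Set GQ)
    {δ₀ : (RwBar N A).ValueGroup} (hδ₀ : δ₀ ≤ 1) (ξ c : (FN N)ˣ) (b : Kbarˣ)
    (hbH : constUnits N (b ^ q) ∈ fixedUnits N H)
    (hcH : c ∈ fixedUnits N H) (hξ : ξ = constUnits N b * c ^ q * uSq hqN ξ)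
    (a₀ : Kbarˣ) (ha₀H : constUnits N (a₀ ^ q) ∈ fixedUnits N H)
    (z₀ d₀ : (FN N)ˣ) (hz₀H : z₀ ∈ fixedUnits N H) (hd₀H : d₀ ∈ fixedUnits N H)
    (h0 : ξ = constUnits N a₀ * z₀ * d₀ ^ q)
    (hz₀ : (RwBar N A).valuation ((z₀ : FN N) - 1) ≤ δ₀) (n : ℕ) :
    ∃ z ∈ fixedUnits N H, ∃ d ∈ fixedUnits N H, ξ = constUnits N b * z * d ^ q ∧
      (RwBar N A).valuation ((z : FN N) - 1) ≤
        max ((RwBar N A).valuation ((q : ℕ) : FN N)) δ₀ ^ (n + 1) * δ₀ :=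
  (gaussLike_one_sq A hqN).exists_deep_rep_const_mem (uSq hqN) (coe_uSq hqN) q
    (fixedUnits N H) (fun _ hx => uSq_mem_fixedUnits hqN H hx) hδ₀ ξ (constUnits N b) c hcH hξ
    ⟨constUnits N (b ^ q), hbH, by rw [uSq_constUnits, map_pow]⟩ (constUnits N a₀) z₀ d₀ hz₀H hd₀H
    ⟨constUnits N (a₀ ^ q), ha₀H, by rw [uSq_constUnits, map_pow]⟩ h0 hz₀ n

/-- **component 2, `T₂ = (W U W) ∘ (W U W)`, with a constant, `H`-rational.** -/
theorem exists_deep_rep_two_sq_const (h : ExactDvd q N) (H : Set GQ)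
    {δ₀ : (redData2 N A h).Rw.ValueGroup} (hδ₀ : δ₀ ≤ 1) (ξ c : (FN N)ˣ) (b : Kbarˣ)
    (hbH : constUnits N (b ^ q) ∈ fixedUnits N H)
    (hcH : c ∈ fixedUnits N H) (hξ : ξ = constUnits N b * c ^ q * uSq₂ h ξ)
    (a₀ : Kbarˣ) (ha₀H : constUnits N (a₀ ^ q) ∈ fixedUnits N H)
    (z₀ d₀ : (FN N)ˣ) (hz₀H : z₀ ∈ fixedUnits N H) (hd₀H : d₀ ∈ fixedUnits N H)
    (h0 : ξ = constUnits N a₀ * z₀ * d₀ ^ q)
    (hz₀ : (redData2 N A h).Rw.valuation ((z₀ : FN N) - 1) ≤ δ₀) (n : ℕ) :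
    ∃ z ∈ fixedUnits N H, ∃ d ∈ fixedUnits N H, ξ = constUnits N b * z * d ^ q ∧
      (redData2 N A h).Rw.valuation ((z : FN N) - 1) ≤
        max ((redData2 N A h).Rw.valuation ((q : ℕ) : FN N)) δ₀ ^ (n + 1) * δ₀ :=
  (gaussLike_two_sq A h).exists_deep_rep_const_mem (uSq₂ h) (coe_uSq₂ h) q
    (fixedUnits N H) (fun _ hx => uSq₂_mem_fixedUnits h H hx) hδ₀ ξ (constUnits N b) c hcH hξ
    ⟨constUnits N (b ^ q), hbH, by rw [uSq₂_constUnits, map_pow]⟩ (constUnits N a₀) z₀ d₀ hz₀H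
    hd₀H ⟨constUnits N (a₀ ^ q), ha₀H, by rw [uSq₂_constUnits, map_pow]⟩ h0 hz₀ n

end Modular

end Fermat.Agent.GF.NormDepth.U
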