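import Mathlib
import Fermat.Agent.GF.NormDepth.U.Const
import Fermat.Agent.GH.Inst.Arch

/-!
# GATE-F / GF-NORMDEPTH-CONST-DEEP: representatives `ξ = b * z * d ^ p` with `z - 1 ∈ κ • R`
for EVERY constant `κ ≠ 0`

The constant-carrying iteration (`Const.lean`) combined with `Unram` (every value is the value of
a constant) and the archimedean property of the base valuation: the depth
`max (v ℓ) δ₀ ^ (n + 1) * δ₀` is below `v κ` for `n` large.  Output in MEMBERSHIP form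
(`z - 1 = κ * r`, `r ∈ R`), inside the `T`-stable subgroup `S`.

* `GaussLike.val_algebraMap_le_iff`, `GaussLike.exists_const_val_eq`,
  `GaussLike.exists_eq_mul_of_val_le` : the dictionary constants ↔ values;
* `GaussLike.exists_rep_const_mem` : the abstract statement;
* `exists_rep_one_sq_const`, `exists_rep_two_sq_const` : the modular frame, `T = U_q ∘ U_q`,
  `A` over the prime `q`, `H`-fixed units: for every `κ ∈ ℚ̄ˣ`,
  `ξ = b * z * d ^ q` with `z, d` `H`-fixed and `z - 1 ∈ κ • Rw_i`.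
-/

set_option linter.unusedSectionVars false

namespace Fermat.Agent.GF.NormDepth.U

open Fermat.Agent.GF.NormDepth

section Abstract

variable {L F : Type*} [Field L] [Field F] [Algebra L F]

namespace GaussLike

variable {A : ValuationSubring L} {R : ValuationSubring F} {ℓ : ℕ} {U : F → F}

/-- comparison of the values of constants -/
theorem val_algebraMap_le_iff (H : GaussLike A R ℓ U) (a : L) {b : L} (hb : b ≠ 0) :
    R.valuation (algebraMap L F a) ≤ R.valuation (algebraMap L F b) ↔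
      A.valuation a ≤ A.valuation b := by
  have hbF : algebraMap L F b ≠ 0 := (map_ne_zero _).mpr hb
  have h1 : R.valuation (algebraMap L F a) ≤ R.valuation (algebraMap L F b) ↔
      algebraMap L F (a / b) ∈ R := by
    rw [← R.valuation_le_one_iff, map_div₀, map_div₀,
      div_le_one₀ (zero_lt_iff.mpr ((Valuation.ne_zero_iff _).mpr hbF))]
  have h2 : A.valuation a ≤ A.valuation b ↔ a / b ∈ A := by
    rw [← A.valuation_le_one_iff, map_div₀,
      div_le_one₀ (zero_lt_iff.mpr ((Valuation.ne_zero_iff _).mpr hb))]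
  rw [h1, h2, H.const_mem]

theorem val_algebraMap_lt_one_iff (H : GaussLike A R ℓ U) (a : L) :
    R.valuation (algebraMap L F a) < 1 ↔ A.valuation a < 1 := by
  by_cases ha : a = 0
  · subst ha
    simp
  rw [lt_iff_not_ge, lt_iff_not_ge, not_iff_not]
  have h := H.val_algebraMap_le_iff (1 : L) ha
  rw [(algebraMap L F).map_one, Valuation.map_one, Valuation.map_one] at h
  exact h

/-- every nonzero value is the value of a constant -/
theorem exists_const_val_eq (H : GaussLike A R ℓ U) {y : F} (hy : y ≠ 0) :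
    ∃ c : L, c ≠ 0 ∧ R.valuation y = R.valuation (algebraMap L F c) := by
  obtain ⟨c, hc0, hm, hmi⟩ := H.unram y hy
  have hcF : algebraMap L F c ≠ 0 := (map_ne_zero _).mpr hc0
  refine ⟨c, hc0, ?_⟩
  have h1 : R.valuation (y / algebraMap L F c) = 1 := by
    apply le_antisymm ((R.valuation_le_one_iff _).mpr hm)
    have h2 := (R.valuation_le_one_iff _).mpr hmi
    rw [map_inv₀] at h2
    have hne : R.valuation (y / algebraMap L F c) ≠ 0 :=
      (Valuation.ne_zero_iff _).mpr (div_ne_zero hy hcF)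
    exact (inv_le_one₀ (zero_lt_iff.mpr hne)).mp h2
  rw [map_div₀] at h1
  exact (div_eq_one_iff_eq ((Valuation.ne_zero_iff _).mpr hcF)).mp h1

/-- membership form of a bound by the value of a constant -/
theorem exists_eq_mul_of_val_le (R : ValuationSubring F) {y : F} {c : L} (hc : c ≠ 0)
    (h : R.valuation y ≤ R.valuation (algebraMap L F c)) :
    ∃ r ∈ R, y = algebraMap L F c * r := by
  have hcF : algebraMap L F c ≠ 0 := (map_ne_zero _).mpr hc
  refine ⟨y / algebraMap L F c, ?_, by field_simp⟩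
  rw [← R.valuation_le_one_iff, map_div₀,
    div_le_one₀ (zero_lt_iff.mpr ((Valuation.ne_zero_iff _).mpr hcF))]
  exact h

/-- **Representatives with a constant, of arbitrary depth, membership form.** -/
theorem exists_rep_const_mem (H : GaussLike A R ℓ U)
    (harch : ∀ x y : L, A.valuation x < 1 → y ≠ 0 → ∃ n : ℕ, A.valuation x ^ n ≤ A.valuation y)
    (hℓ0 : ((ℓ : ℕ) : L) ≠ 0) (hℓ : A.valuation ((ℓ : ℕ) : L) < 1)
    (T : Fˣ →* Fˣ) (hT : ∀ u : Fˣ, ((T u : Fˣ) : F) = U (u : F)) (p : ℕ) (S : Subgroup Fˣ)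
    (hS : ∀ x ∈ S, T x ∈ S)
    (ξ b c : Fˣ) (hcS : c ∈ S) (hξ : ξ = b * c ^ p * T ξ) (hb : ∃ e ∈ S, T b = e ^ p)
    (a₀ z₀ d₀ : Fˣ) (hz₀S : z₀ ∈ S) (hd₀S : d₀ ∈ S) (ha₀ : ∃ e ∈ S, T a₀ = e ^ p)
    (h0 : ξ = a₀ * z₀ * d₀ ^ p) (hz₀ : R.valuation ((z₀ : F) - 1) < 1)
    (κ : L) (hκ : κ ≠ 0) :
    ∃ z ∈ S, ∃ d ∈ S, ξ = b * z * d ^ p ∧ ∃ r ∈ R, (z : F) - 1 = algebraMap L F κ * r := by
  set v := R.valuation with hv
  have hcast : ((ℓ : ℕ) : F) = algebraMap L F ((ℓ : ℕ) : L) := (map_natCast _ ℓ).symm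
  have hvℓ : v ((ℓ : ℕ) : F) < 1 := by
    rw [hcast]
    exact (H.val_algebraMap_lt_one_iff _).mpr hℓ
  -- `δ₀ := max (v (z₀ - 1)) (v ℓ)` is the value of a constant `e` with `|e| < 1`
  obtain ⟨e, he0, helt, heq⟩ : ∃ e : L, e ≠ 0 ∧ A.valuation e < 1 ∧
      max (v ((z₀ : F) - 1)) (v ((ℓ : ℕ) : F)) = v (algebraMap L F e) := by
    rcases le_total (v ((z₀ : F) - 1)) (v ((ℓ : ℕ) : F)) with hle | hle
    · exact ⟨((ℓ : ℕ) : L), hℓ0, hℓ, by rw [max_eq_right hle, hcast]⟩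
    · have hne : (z₀ : F) - 1 ≠ 0 := by
        intro h
        rw [h, map_zero] at hle
        have hℓF : ((ℓ : ℕ) : F) ≠ 0 := by
          rw [hcast]; exact (map_ne_zero _).mpr hℓ0
        exact (Valuation.ne_zero_iff v).mpr hℓF (le_antisymm hle zero_le)
      obtain ⟨c0, hc00, hc0⟩ := H.exists_const_val_eq hne
      refine ⟨c0, hc00, ?_, by rw [max_eq_left hle, hc0]⟩
      rw [← H.val_algebraMap_lt_one_iff, ← hc0]
      exact hz₀
  set δ₀ := max (v ((z₀ : F) - 1)) (v ((ℓ : ℕ) : F)) with hδ₀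
  have hδ₀1 : δ₀ ≤ 1 := max_le hz₀.le hvℓ.le
  have hεeq : max (v ((ℓ : ℕ) : F)) δ₀ = δ₀ := max_eq_right (le_max_right _ _)
  obtain ⟨n, hn⟩ := harch e κ helt hκ
  obtain ⟨z, hzS, d, hdS, hzd, hz⟩ := H.exists_deep_rep_const_mem T hT p S hS hδ₀1 ξ b c hcS hξ hb
    a₀ z₀ d₀ hz₀S hd₀S ha₀ h0 (le_max_left _ _) n
  refine ⟨z, hzS, d, hdS, hzd, exists_eq_mul_of_val_le R hκ ?_⟩
  refine hz.trans ?_
  rw [hεeq]
  have h3 : δ₀ ^ (n + 1) * δ₀ ≤ δ₀ ^ n := by
    calc δ₀ ^ (n + 1) * δ₀ ≤ δ₀ ^ (n + 1) * 1 := mul_le_mul' le_rfl hδ₀1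
      _ = δ₀ ^ (n + 1) := mul_one _
      _ ≤ δ₀ ^ n := pow_le_pow_right_of_le_one' hδ₀1 (Nat.le_succ n)
  refine h3.trans ?_
  rw [heq, ← map_pow, ← map_pow]
  exact (H.val_algebraMap_le_iff _ hκ).mpr (by rw [map_pow]; exact hn)

end GaussLike

end Abstract

/-! ### The modular frame -/

section Modular

open ModularCurve
open Fermat.Agent.S24 Fermat.Agent.S24_helper62
open Fermat.Agent.GJ.Kum Fermat.Agent.GJ.Kum.KumType Fermat.Agent.GJ.J1.Val
open Fermat.Agent.GK.UQ Fermat.Agent.GK.AL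

local notation "GQ" => (AlgebraicClosure ℚ ≃ₐ[ℚ] AlgebraicClosure ℚ)

variable {N q : ℕ} [NeZero N] [Fact q.Prime] (A : ValuationSubring Kbar)

/-- **component 1**: `A` over `q`, `T = U_q ∘ U_q`, `ξ = b * c ^ q * T ξ`,
`ξ = a₀ * z₀ * d₀ ^ q`, `v₁ (z₀ - 1) < 1`, `b`, `a₀` constants, `c, z₀, d₀` `H`-fixed:
for EVERY constant `κ ≠ 0`: `ξ = b * z * d ^ q`, `z, d` `H`-fixed, `z - 1 ∈ κ • Rw₁`. -/
theorem exists_rep_one_sq_const (hqN : q ∣ N) (hA : A.LiesOverPrime q) (H : Set GQ)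
    (ξ c : (FN N)ˣ) (b : Kbarˣ) (hbH : constUnits N (b ^ q) ∈ fixedUnits N H)
    (hcH : c ∈ fixedUnits N H) (hξ : ξ = constUnits N b * c ^ q * uSq hqN ξ)
    (a₀ : Kbarˣ) (ha₀H : constUnits N (a₀ ^ q) ∈ fixedUnits N H)
    (z₀ d₀ : (FN N)ˣ) (hz₀H : z₀ ∈ fixedUnits N H) (hd₀H : d₀ ∈ fixedUnits N H)
    (h0 : ξ = constUnits N a₀ * z₀ * d₀ ^ q)
    (hz₀ : (RwBar N A).valuation ((z₀ : FN N) - 1) < 1) (κ : Kbar) (hκ : κ ≠ 0) :
    ∃ z ∈ fixedUnits N H, ∃ d ∈ fixedUnits N H, ξ = constUnits N b * z * d ^ q ∧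
      ∃ r ∈ RwBar N A, (z : FN N) - 1 = algebraMap Kbar (FN N) κ * r := by
  have hq : q.Prime := Fact.out
  exact (gaussLike_one_sq A hqN).exists_rep_const_mem
    (Fermat.Agent.GH.Inst.harch A hq hA) (by exact_mod_cast hq.ne_zero)
    (A.mem_nonunits_iff.1 hA) (uSq hqN) (coe_uSq hqN) q
    (fixedUnits N H) (fun _ hx => uSq_mem_fixedUnits hqN H hx) ξ (constUnits N b) c hcH hξ
    ⟨constUnits N (b ^ q), hbH, by rw [uSq_constUnits, map_pow]⟩ (constUnits N a₀) z₀ d₀ hz₀H hd₀H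
    ⟨constUnits N (a₀ ^ q), ha₀H, by rw [uSq_constUnits, map_pow]⟩ h0 hz₀ κ hκ

/-- **component 2**: the same with `T₂ = (W U W) ∘ (W U W)` and the second Gauss valuation. -/
theorem exists_rep_two_sq_const (h : ExactDvd q N) (hA : A.LiesOverPrime q) (H : Set GQ)
    (ξ c : (FN N)ˣ) (b : Kbarˣ) (hbH : constUnits N (b ^ q) ∈ fixedUnits N H)
    (hcH : c ∈ fixedUnits N H) (hξ : ξ = constUnits N b * c ^ q * uSq₂ h ξ)
    (a₀ : Kbarˣ) (ha₀H : constUnits N (a₀ ^ q) ∈ fixedUnits N H)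
    (z₀ d₀ : (FN N)ˣ) (hz₀H : z₀ ∈ fixedUnits N H) (hd₀H : d₀ ∈ fixedUnits N H)
    (h0 : ξ = constUnits N a₀ * z₀ * d₀ ^ q)
    (hz₀ : (redData2 N A h).Rw.valuation ((z₀ : FN N) - 1) < 1) (κ : Kbar) (hκ : κ ≠ 0) :
    ∃ z ∈ fixedUnits N H, ∃ d ∈ fixedUnits N H, ξ = constUnits N b * z * d ^ q ∧
      ∃ r ∈ (redData2 N A h).Rw, (z : FN N) - 1 = algebraMap Kbar (FN N) κ * r := by
  have hq : q.Prime := Fact.out
  exact (gaussLike_two_sq A h).exists_rep_const_mem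
    (Fermat.Agent.GH.Inst.harch A hq hA) (by exact_mod_cast hq.ne_zero)
    (A.mem_nonunits_iff.1 hA) (uSq₂ h) (coe_uSq₂ h) q
    (fixedUnits N H) (fun _ hx => uSq₂_mem_fixedUnits h H hx) ξ (constUnits N b) c hcH hξ
    ⟨constUnits N (b ^ q), hbH, by rw [uSq₂_constUnits, map_pow]⟩ (constUnits N a₀) z₀ d₀ hz₀H
    hd₀H ⟨constUnits N (a₀ ^ q), ha₀H, by rw [uSq₂_constUnits, map_pow]⟩ h0 hz₀ κ hκ

end Modular

end Fermat.Agent.GF.NormDepth.U
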